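/-
S23 programme, piece (S23-DESC), part (D1): GALOIS DESCENT BY REDUCED ROW ECHELON FORM.

`K ⊆ L` fields, `G` a group acting on `L` by ring automorphisms with fixed field `K`.  A
finite-dimensional `L`-subspace `V` of `ℕ → L` which is stable under the coefficientwise action
of `G` has an `L`-basis consisting of sequences with all entries in `K`.
-/
import Mathlib

set_option autoImplicit false

open Module

namespace Fermat.Agent.S23.Descent

variable {K L : Type*} [Field K] [Field L] [Algebra K L]
variable {G : Type*} [Group G] [MulSemiringAction G L]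

/-- **RREF descent.**  There are finitely many sequences `e k : ℕ → K` whose images in `ℕ → L`
lie in `V`, are `L`-linearly independent, and span `V`. -/
theorem exists_rational_basis
    (hfix : ∀ x : L, (∀ σ : G, σ • x = x) → x ∈ (algebraMap K L).range)
    (V : Submodule L (ℕ → L)) [FiniteDimensional L V]
    (hstab : ∀ σ : G, ∀ v ∈ V, (fun n => σ • v n) ∈ V) :
    ∃ (κ : Type) (_ : Fintype κ) (e : κ → ℕ → K),
      (∀ k, (fun n => algebraMap K L (e k n)) ∈ V) ∧
      LinearIndependent L (fun k => (fun n => algebraMap K L (e k n) : ℕ → L)) ∧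
      Submodule.span L (Set.range fun k => (fun n => algebraMap K L (e k n) : ℕ → L)) = V ∧
      Fintype.card κ = finrank L V := by
  classical
  -- the coordinate functionals on `V`
  let a : ℕ → Module.Dual L V := fun n => (LinearMap.proj n).comp V.subtype
  have ha : ∀ n (v : V), a n v = (v : ℕ → L) n := fun n v => rfl
  obtain ⟨κ, idx, hidx, hspan, hli⟩ := exists_linearIndependent' L a
  have hfin : Finite κ := hli.finite
  have : Fintype κ := Fintype.ofFinite κ
  -- the pivot projection
  let Φ : V →ₗ[L] (κ → L) := LinearMap.pi fun k => a (idx k)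
  have hΦ : ∀ (v : V) k, Φ v k = (v : ℕ → L) (idx k) := fun v k => rfl
  have hΦinj : Function.Injective Φ := by
    rw [← LinearMap.ker_eq_bot, LinearMap.ker_eq_bot']
    intro v hv
    -- every functional in the span of the pivots vanishes at `v`
    have h1 : ∀ φ ∈ Submodule.span L (Set.range (a ∘ idx)), φ v = 0 := by
      intro φ hφ
      induction hφ using Submodule.span_induction with
      | mem x hx =>
        obtain ⟨k, rfl⟩ := hx
        have := congrFun hv k
        rw [hΦ] at this
        exact this
      | zero => simp
      | add x y _ _ hx hy => simp [hx, hy]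
      | smul c x _ hx => simp [hx]
    apply Subtype.ext
    funext n
    have h2 : a n ∈ Submodule.span L (Set.range (a ∘ idx)) := by
      rw [hspan]
      exact Submodule.subset_span ⟨n, rfl⟩
    exact h1 _ h2
  have hcard1 : Fintype.card κ ≤ finrank L V := by
    have := hli.fintype_card_le_finrank
    rwa [Subspace.dual_finrank_eq] at this
  have hcard2 : finrank L V ≤ Fintype.card κ := by
    have := LinearMap.finrank_le_finrank_of_injective hΦinj
    rwa [Module.finrank_fintype_fun_eq_card] at this
  have hcard : finrank L V = finrank L (κ → L) := by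
    rw [Module.finrank_fintype_fun_eq_card]
    exact le_antisymm hcard2 hcard1
  let Φe : V ≃ₗ[L] (κ → L) := LinearMap.linearEquivOfInjective Φ hΦinj hcard
  have hΦe : ∀ v, Φe v = Φ v := fun v => rfl
  -- the reduced basis
  let e : κ → V := fun k => Φe.symm (Pi.single k 1)
  have he : ∀ k k', ((e k : V) : ℕ → L) (idx k') = (Pi.single k (1 : L) : κ → L) k' := by
    intro k k'
    have : Φe (e k) = Pi.single k 1 := Φe.apply_symm_apply _
    rw [← hΦ, ← hΦe, this]
  -- invariance
  have hinv : ∀ (σ : G) k n, σ • ((e k : V) : ℕ → L) n = ((e k : V) : ℕ → L) n := by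
    intro σ k n
    let w : V := ⟨fun n => σ • ((e k : V) : ℕ → L) n, hstab σ _ (e k).2⟩
    have hw : Φ w = Φ (e k) := by
      funext k'
      rw [hΦ, hΦ]
      show σ • ((e k : V) : ℕ → L) (idx k') = _
      rw [he]
      by_cases hk : k' = k
      · subst hk
        simp
      · simp [hk]
    have hwe : w = e k := hΦinj hw
    have := congrArg (fun v : V => (v : ℕ → L) n) hwe
    exact this
  have hK : ∀ k n, ((e k : V) : ℕ → L) n ∈ (algebraMap K L).range :=
    fun k n => hfix _ (fun σ => hinv σ k n)
  choose e₀ he₀ using hK
  have hee : ∀ k, (fun n => algebraMap K L (e₀ k n)) = ((e k : V) : ℕ → L) := by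
    intro k
    funext n
    exact he₀ k n
  -- `e` is a basis of `V`
  have hrepr : ∀ v : V, v = ∑ k, ((v : ℕ → L) (idx k)) • e k := by
    intro v
    apply Φe.injective
    rw [map_sum]
    funext k'
    simp only [map_smul, Finset.sum_apply, Pi.smul_apply, smul_eq_mul]
    have h3 : ∀ k, Φe (e k) = Pi.single k 1 := fun k => Φe.apply_symm_apply _
    simp_rw [h3]
    rw [hΦe, hΦ]
    simp [Pi.single_apply]
  refine ⟨κ, inferInstance, e₀, ?_, ?_, ?_, ?_⟩
  · intro k
    rw [hee]
    exact (e k).2
  · have hfun : (fun k => (fun n => algebraMap K L (e₀ k n) : ℕ → L))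
        = fun k => ((e k : V) : ℕ → L) := funext hee
    rw [hfun]
    have hli' : LinearIndependent L e := by
      have : LinearIndependent L (fun k => (Pi.single k (1 : L) : κ → L)) :=
        (Pi.basisFun L κ).linearIndependent
      exact (this.map' (Φe.symm : (κ → L) →ₗ[L] V) (LinearEquiv.ker _))
    exact hli'.map' V.subtype (Submodule.ker_subtype V)
  · have hfun : (fun k => (fun n => algebraMap K L (e₀ k n) : ℕ → L))
        = fun k => ((e k : V) : ℕ → L) := funext hee
    rw [hfun]
    apply le_antisymm
    · rw [Submodule.span_le]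
      rintro _ ⟨k, rfl⟩
      exact (e k).2
    · intro v hv
      have := hrepr ⟨v, hv⟩
      have h4 : v = ∑ k, (v (idx k)) • ((e k : V) : ℕ → L) := by
        have := congrArg (fun w : V => (w : ℕ → L)) this
        simpa using this
      rw [h4]
      exact Submodule.sum_mem _ fun k _ =>
        Submodule.smul_mem _ _ (Submodule.subset_span ⟨k, rfl⟩)
  · rw [hcard, Module.finrank_fintype_fun_eq_card]

end Fermat.Agent.S23.Descent
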