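/-
S23 programme, piece (S23-DESC), parts (D2'), (D2''): the arithmetic Galois action on the
function field `FF N` of `X₀(N)` over `ℚbar` preserves regular differentials `h • d(j)`, and acts
coefficientwise on the `q`-expansion of `h * θ(j)`.
-/
import Fermat.Agent.X0.AnDefs
import Fermat.Agent.X0.FFDiff
import Fermat.Agent.X0.FFConst
import Fermat.Agent.X0.QExpRing
import Fermat.Agent.S20.LowDJ
import Fermat.Agent.S20.DictRank
import Fermat.Agent.S23.Descent

set_option autoImplicit false

open AlgebraicCurve KaehlerDifferential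

noncomputable section

namespace Fermat.Agent.S23.DescentX0

open Fermat.Agent.X0 Fermat.Agent.X0.FF Fermat.Agent.S20.LowDJ Fermat.Agent.S20.DictRank

section Generic

variable {K F : Type*} [Field K] [Field F] [Algebra K F] [CharZero K] [IsAlgClosed K] {x : F}

/-- The order of `dx` at a place: `ord_v (x - c) - 1` if `v` lies over the finite value `c`,
`ord_v x - 1` at a pole. -/
theorem ordDifferential_D_gen (hx : IsGen K x) (v : Place K F) :
    (v.ord x < 0 ∧ v.ordDifferential (D K F x) = v.ord x - 1) ∨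
    ∃ c : K, 0 < v.ord (x - algebraMap K F c) ∧
      v.ordDifferential (D K F x) = v.ord (x - algebraMap K F c) - 1 := by
  by_cases hpole : v.ord x < 0
  · exact Or.inl ⟨hpole, ordDifferential_D_of_ord_ne_zero hx v hpole.ne⟩
  · right
    have hmem : x ∈ v.toValuationSubring := mem_of_ord_nonneg v (not_lt.mp hpole)
    obtain ⟨c, hc | hc⟩ := exists_ord_sub_pos hx v hmem
    · exact absurd (hc ▸ isAlgebraic_algebraMap c : IsAlgebraic K x) hx.transcendental
    · refine ⟨c, hc, ?_⟩
      have hD : D K F x = D K F (x - algebraMap K F c) := by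
        rw [map_sub, Derivation.map_algebraMap, sub_zero]
      rw [hD]
      exact ordDifferential_D_of_ord_ne_zero hx v hc.ne'

/-- `ord_{g v} (dx) = ord_v (dx)` for a semilinear automorphism `g` fixing `x`. -/
theorem ordDifferential_D_smul (hx : IsGen K x) (g : SemilinearAut K F) (hg : g • x = x)
    (w : Place K F) :
    (g • w).ordDifferential (D K F x) = w.ordDifferential (D K F x) := by
  rcases ordDifferential_D_gen hx w with ⟨hpole, hw⟩ | ⟨c, hc, hw⟩
  · have h1 : (g • w).ord x = w.ord x := by
      have := SemilinearAut.ord_smul g w x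
      rwa [hg] at this
    rw [hw, ← h1]
    exact ordDifferential_D_of_ord_ne_zero hx _ (by rw [h1]; exact hpole.ne)
  · have h1 : (g • w).ord (x - algebraMap K F (SemilinearAut.baseAut g c))
        = w.ord (x - algebraMap K F c) := by
      have := SemilinearAut.ord_smul g w (x - algebraMap K F c)
      rwa [smul_sub, hg, SemilinearAut.smul_algebraMap] at this
    have hD : D K F x = D K F (x - algebraMap K F (SemilinearAut.baseAut g c)) := by
      rw [map_sub, Derivation.map_algebraMap, sub_zero]
    rw [hw, ← h1, hD]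
    exact ordDifferential_D_of_ord_ne_zero hx _ (by rw [h1]; exact hc.ne')

/-- Regular differentials `h • dx` are stable under a semilinear automorphism fixing `x`. -/
theorem regular_smul_gen (hx : IsGen K x) (g : SemilinearAut K F) (hg : g • x = x) (h : F)
    (hreg : ∀ v : Place K F, 0 ≤ v.ordDifferential (h • D K F x)) :
    ∀ v : Place K F, 0 ≤ v.ordDifferential ((g • h) • D K F x) := by
  intro v
  rcases eq_or_ne h 0 with rfl | hh
  · simpa using hreg v
  set w : Place K F := g⁻¹ • v with hw
  have hv : g • w = v := by rw [hw, smul_inv_smul]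
  have hgh : g • h ≠ 0 := by
    intro h0
    apply hh
    have := congrArg (fun y => g⁻¹ • y) h0
    simpa using this
  have hDne : D K F x ≠ 0 := D_ne_zero hx
  have h1 := hreg w
  rw [ordDifferential_smul' hx w hh hDne] at h1
  rw [ordDifferential_smul' hx v hgh hDne, ← hv, SemilinearAut.ord_smul,
    ordDifferential_D_smul hx g hg w]
  exact h1

end Generic

variable (N : ℕ)

/-- The arithmetic Galois action of `σ ∈ Gal(ℚbar/ℚ)` on `FF N` (coefficientwise on
`q`-expansions). -/
abbrev gal (σ : Kbar ≃ₐ[ℚ] Kbar) : SemilinearAut Kbar (FF N) :=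
  ModularCurve.arithmeticGalois (ModularCurve.modularFunctionFieldFull N) σ

theorem coe_gal_smul (σ : Kbar ≃ₐ[ℚ] Kbar) (h : FF N) :
    ((gal N σ • h : FF N) : LaurentSeries Kbar)
      = ModularCurve.coeffMap (σ : Kbar →+* Kbar) (h : LaurentSeries Kbar) := rfl

/-- `j` has rational coefficients, so it is fixed. -/
theorem gal_smul_jF (σ : Kbar ≃ₐ[ℚ] Kbar) : gal N σ • jF N = jF N := by
  apply Subtype.ext
  rw [coe_gal_smul]
  show ModularCurve.coeffMap (σ : Kbar →+* Kbar)
    (ModularCurve.coeffEmb Kbar (ModularCurve.qExpand ℚ 1 ModularCurve.jq)) = _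
  rw [ModularCurve.coeffMap_coeffEmb]
  rfl

theorem gal_smul_algebraMap (σ : Kbar ≃ₐ[ℚ] Kbar) (c : Kbar) :
    gal N σ • algebraMap Kbar (FF N) c = algebraMap Kbar (FF N) (σ c) :=
  SemilinearAut.smul_algebraMap (gal N σ) c

set_option synthInstance.maxHeartbeats 400000 in
/-- **(D2')** Regular differentials `h • dj` on `X₀(N)` are stable under the arithmetic Galois
action. -/
theorem regular_smul (hx : IsGen Kbar (jF N)) (σ : Kbar ≃ₐ[ℚ] Kbar) (h : FF N)
    (hreg : ∀ v : Place Kbar (FF N), 0 ≤ v.ordDifferential (h • D Kbar (FF N) (jF N))) :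
    ∀ v : Place Kbar (FF N),
      0 ≤ v.ordDifferential ((gal N σ • h) • D Kbar (FF N) (jF N)) :=
  regular_smul_gen hx (gal N σ) (gal_smul_jF N σ) h hreg

/-- `θ(j) = q dj/dq` has rational coefficients. -/
theorem coeffMap_thetaJ (σ : Kbar ≃ₐ[ℚ] Kbar) :
    ModularCurve.coeffMap (σ : Kbar →+* Kbar) thetaJ = thetaJ := by
  rw [thetaJ, coeffMap_laurentOf]
  congr 1
  ext n
  simp only [PowerSeries.coeff_map, thetaNumK, PowerSeries.coeff_mk, jNumK, map_mul, map_sub,
    map_natCast, map_one]
  congr 1
  exact σ.commutes _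

/-- **(D2'')** The `q`-expansion of `(g • h) * θ(j)` is the coefficientwise conjugate of that of
`h * θ(j)`. -/
theorem coe_gal_smul_mul_thetaJ (σ : Kbar ≃ₐ[ℚ] Kbar) (h : FF N) :
    ((gal N σ • h : FF N) : LaurentSeries Kbar) * thetaJ
      = ModularCurve.coeffMap (σ : Kbar →+* Kbar) ((h : LaurentSeries Kbar) * thetaJ) := by
  rw [map_mul, coeffMap_thetaJ, coe_gal_smul]

theorem coeffNat_gal_smul (σ : Kbar ≃ₐ[ℚ] Kbar) (h : FF N) (n : ℕ) :
    coeffNat thetaJ ((gal N σ • h : FF N) : LaurentSeries Kbar) n
      = σ (coeffNat thetaJ (h : LaurentSeries Kbar) n) := by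
  rw [coeffNat_apply, coeffNat_apply, coe_gal_smul_mul_thetaJ, ModularCurve.coeffMap_coeff]
  rfl

end Fermat.Agent.S23.DescentX0
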