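/-
PROGRAM C / S23 (helper19): Galois stability of the space of regular differentials `h • dj` of the
function field `F = FF N` of `X₀(N)` over `ℚbar`, and the coefficientwise description of the
arithmetic Galois action.  Generic part: for a function field `F / K` with generator `x`
(`IsGen K x`) and a semilinear automorphism `g` of `F / K` fixing `x`, the Riemann–Roch space
`L(div (dx))` is `g`-stable.
-/
import Mathlib
import Fermat.Prelude.Def_ModularCurve_ArithmeticGalois
import Fermat.Prelude.Def_AlgebraicCurve_CanonicalDivisor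
import Fermat.Prelude.Def_AlgebraicCurve_Repartitions
import Fermat.Agent.X0.AnDefs
import Fermat.Agent.X0.FFGenus

set_option autoImplicit false
set_option linter.style.haveILetI false
set_option linter.unusedSectionVars false

namespace Fermat.Agent.S23.GaloisReg

open AlgebraicCurve KaehlerDifferential Fermat.Agent.X0 Fermat.Agent.X0.FF

section Generic

variable {K F : Type*} [Field K] [Field F] [Algebra K F] {x : F}

/-- A semilinear automorphism fixing `x` does not change the order of `dx`. -/
theorem ordDifferential_D_smul (H : GenusHyp K x) (g : SemilinearAut K F) (hg : g • x = x)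
    (w : Place K F) :
    (g • w).ordDifferential (D K F x) = w.ordDifferential (D K F x) := by
  rcases H.pole_or_zero w with hp | ⟨c, hc⟩
  · have h1 : (g • w).ord x = w.ord x := by
      have := SemilinearAut.ord_smul g w x
      rwa [hg] at this
    rw [H.ordDifferential_dx_of_pole hp, H.ordDifferential_dx_of_pole (by rw [h1]; exact hp), h1]
  · have h2 : g • (x - algebraMap K F c) = x - algebraMap K F (SemilinearAut.baseAut g c) := by
      rw [smul_sub, hg, SemilinearAut.smul_algebraMap]
    have h1 : (g • w).ord (x - algebraMap K F (SemilinearAut.baseAut g c))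
        = w.ord (x - algebraMap K F c) := by
      have := SemilinearAut.ord_smul g w (x - algebraMap K F c)
      rwa [h2] at this
    rw [H.ordDifferential_dx_of_zero hc,
      H.ordDifferential_dx_of_zero (c := SemilinearAut.baseAut g c) (by rw [h1]; exact hc), h1]

/-- **Galois stability of regularity.** -/
theorem regular_smul (H : GenusHyp K x) (g : SemilinearAut K F) (hg : g • x = x) {h : F}
    (hreg : ∀ v : Place K F, 0 ≤ v.ordDifferential (h • D K F x)) (v : Place K F) :
    0 ≤ v.ordDifferential ((g • h) • D K F x) := by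
  rcases eq_or_ne h 0 with rfl | hh
  · rw [smul_zero]
    exact hreg v
  · have hgh : g • h ≠ 0 := by
      intro h0
      apply hh
      have := congrArg (fun y => g⁻¹ • y) h0
      simpa using this
    set w : Place K F := g⁻¹ • v with hw
    have hv : g • w = v := smul_inv_smul g v
    have hr := hreg w
    rw [H.ordDifferential_smul' w h hh _ H.D_ne_zero] at hr
    rw [← hv, H.ordDifferential_smul' (g • w) (g • h) hgh _ H.D_ne_zero,
      SemilinearAut.ord_smul, ordDifferential_D_smul H g hg w]
    exact hr

variable [IsAlgClosed K] [CharZero K]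

theorem ordDifferential_zero (hx : IsGen K x) (v : Place K F) :
    v.ordDifferential (0 : Ω[F⁄K]) = 0 := by
  haveI := dCoordGenerates hx v
  haveI := nontrivial_kaehler hx
  rw [Place.ordDifferential, Place.differentialCoeff_zero, Place.ord_zero]

/-- `h • dx` is regular everywhere iff `h ∈ L(div (dx))`. -/
theorem mem_riemannRochSpace_iff_regular (hx : IsGen K x) (W : Divisor K F)
    (hW : ∀ v : Place K F, W v = v.ordDifferential (D K F x)) (h : F) :
    h ∈ riemannRochSpace W ↔ ∀ v : Place K F, 0 ≤ v.ordDifferential (h • D K F x) := by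
  have H := FFGenus.genusHyp hx
  rw [mem_riemannRochSpace_iff]
  rcases eq_or_ne h 0 with rfl | hh
  · simp only [true_or, implies_true, zero_smul, true_iff]
    intro v
    rw [ordDifferential_zero hx v]
  · refine forall_congr' fun v => ?_
    rw [H.ordDifferential_smul' v h hh _ H.D_ne_zero, hW v]
    constructor
    · rintro (h0 | h1)
      · exact absurd h0 hh
      · linarith
    · intro h1
      right
      linarith

/-- The Riemann–Roch space of `div (dx)` is stable under semilinear automorphisms fixing `x`. -/
theorem smul_mem_riemannRochSpace (hx : IsGen K x) (W : Divisor K F)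
    (hW : ∀ v : Place K F, W v = v.ordDifferential (D K F x)) (g : SemilinearAut K F)
    (hg : g • x = x) {h : F} (hh : h ∈ riemannRochSpace W) : g • h ∈ riemannRochSpace W := by
  rw [mem_riemannRochSpace_iff_regular hx W hW] at hh ⊢
  exact regular_smul (FFGenus.genusHyp hx) g hg hh

end Generic

section Modular

open ModularCurve

variable (N : ℕ) [NeZero N]

/-- The arithmetic Galois action fixes the formal `j`. -/
theorem arithmeticGalois_smul_jF (σ : Kbar ≃ₐ[ℚ] Kbar) :
    arithmeticGalois (modularFunctionFieldFull N) σ • jF N = jF N := by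
  apply Subtype.ext
  rw [coe_arithmeticGalois_smul]
  exact coeffMap_coeffEmb σ _

/-- A Laurent series with rational coefficients is fixed by the coefficientwise Galois action. -/
theorem coeffMap_eq_self_of_rat (σ : Kbar ≃ₐ[ℚ] Kbar) (θ : LaurentSeries Kbar)
    (hθ : ∀ k : ℤ, ∃ r : ℚ, θ.coeff k = algebraMap ℚ Kbar r) :
    coeffMap (σ : Kbar →+* Kbar) θ = θ := by
  ext k
  obtain ⟨r, hr⟩ := hθ k
  rw [coeffMap_coeff, hr]
  exact σ.commutes r

/-- Coefficientwise description of `(σ • h) * θ` for `θ` with Galois-fixed coefficients. -/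
theorem coe_smul_mul (σ : Kbar ≃ₐ[ℚ] Kbar) (h : FF N) (θ : LaurentSeries Kbar)
    (hθ : coeffMap (σ : Kbar →+* Kbar) θ = θ) :
    ((arithmeticGalois (modularFunctionFieldFull N) σ • h : FF N) : LaurentSeries Kbar) * θ
      = coeffMap (σ : Kbar →+* Kbar) ((h : LaurentSeries Kbar) * θ) := by
  rw [map_mul, hθ, coe_arithmeticGalois_smul]

theorem coeff_smul_mul (σ : Kbar ≃ₐ[ℚ] Kbar) (h : FF N) (θ : LaurentSeries Kbar)
    (hθ : coeffMap (σ : Kbar →+* Kbar) θ = θ) (k : ℤ) :
    (((arithmeticGalois (modularFunctionFieldFull N) σ • h : FF N) : LaurentSeries Kbar) * θ).coeff k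
      = σ (((h : LaurentSeries Kbar) * θ).coeff k) := by
  rw [coe_smul_mul N σ h θ hθ, coeffMap_coeff]
  rfl

/-- The space of regular differentials `h • dj` of `FF N` is stable under `Gal(ℚbar/ℚ)`. -/
theorem galois_smul_mem_riemannRochSpace (hx : IsGen Kbar (jF N)) (W : Divisor Kbar (FF N))
    (hW : ∀ v : Place Kbar (FF N), W v = v.ordDifferential (D Kbar (FF N) (jF N)))
    (σ : Kbar ≃ₐ[ℚ] Kbar) {h : FF N} (hh : h ∈ riemannRochSpace W) :
    arithmeticGalois (modularFunctionFieldFull N) σ • h ∈ riemannRochSpace W :=
  smul_mem_riemannRochSpace hx W hW _ (arithmeticGalois_smul_jF N σ) hh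

/-- The fixed field of `Gal(ℚbar/ℚ)` is `ℚ`. -/
theorem rat_of_fixed (a : Kbar) (h : ∀ σ : Kbar ≃ₐ[ℚ] Kbar, σ a = a) :
    ∃ r : ℚ, a = algebraMap ℚ Kbar r := by
  haveI : IsAlgClosure ℚ Kbar := ⟨inferInstance, AlgebraicClosure.isAlgebraic ℚ⟩
  have h1 := InfiniteGalois.fixedField_fixingSubgroup (k := ℚ) (K := Kbar) ⊥
  have hx : a ∈ IntermediateField.fixedField
      ((⊥ : IntermediateField ℚ Kbar).fixingSubgroup) := by
    intro σ
    exact h σ
  rw [h1] at hx
  obtain ⟨r, hr⟩ := IntermediateField.mem_bot.mp hx
  exact ⟨r, hr.symm⟩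

end Modular

end Fermat.Agent.S23.GaloisReg
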