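/-
PROGRAM C / S23 (helper19): the space of `q`-expansions of the `h ∈ FF N` with `h • dj` regular
everywhere, as a `ℚbar`-subspace of `ℚbar((q))`; it is stable under the coefficientwise action of
`Gal(ℚbar/ℚ)` and has the same dimension as `L(div (dj))`.
-/
import Mathlib
import Fermat.Agent.S23.GaloisReg

set_option autoImplicit false
set_option linter.style.haveILetI false
set_option linter.unusedSectionVars false

namespace Fermat.Agent.S23.RegSpace

open Module AlgebraicCurve KaehlerDifferential ModularCurve Fermat.Agent.X0 Fermat.Agent.X0.FF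

variable (N : ℕ) [NeZero N]

theorem coe_smul_FF (a : Kbar) (x : FF N) :
    ((a • x : FF N) : LaurentSeries Kbar) = HahnSeries.C a * (x : LaurentSeries Kbar) := by
  rw [Algebra.smul_def]
  show (algebraMap Kbar (LaurentSeries Kbar) a) * (x : LaurentSeries Kbar) = _
  rw [algebraMap_laurentSeries_eq_single]
  rfl

/-- The inclusion `FF N → ℚbar((q))` as a `ℚbar`-linear map. -/
noncomputable def valLin : FF N →ₗ[Kbar] LaurentSeries Kbar where
  toFun h := (h : LaurentSeries Kbar)
  map_add' _ _ := rfl
  map_smul' a h := by
    rw [RingHom.id_apply, ← HahnSeries.C_mul_eq_smul]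
    exact coe_smul_FF N a h

@[simp] theorem valLin_apply (h : FF N) : valLin N h = (h : LaurentSeries Kbar) := rfl

theorem valLin_injective : Function.Injective (valLin N) := Subtype.val_injective

/-- The `q`-expansions of the elements of `L(W)`. -/
noncomputable def regE (W : Divisor Kbar (FF N)) : Submodule Kbar (LaurentSeries Kbar) :=
  (riemannRochSpace W).map (valLin N)

theorem mem_regE_iff (W : Divisor Kbar (FF N)) (s : LaurentSeries Kbar) :
    s ∈ regE N W ↔ ∃ h : FF N, h ∈ riemannRochSpace W ∧ (h : LaurentSeries Kbar) = s := by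
  rw [regE, Submodule.mem_map]
  rfl

theorem finrank_regE (W : Divisor Kbar (FF N)) :
    finrank Kbar (regE N W) = finrank Kbar (riemannRochSpace W) :=
  (LinearEquiv.finrank_eq
    (Submodule.equivMapOfInjective (valLin N) (valLin_injective N) (riemannRochSpace W))).symm

theorem finiteDimensional_regE (W : Divisor Kbar (FF N))
    [FiniteDimensional Kbar (riemannRochSpace W)] : FiniteDimensional Kbar (regE N W) :=
  LinearEquiv.finiteDimensional
    (Submodule.equivMapOfInjective (valLin N) (valLin_injective N) (riemannRochSpace W))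

/-- Galois stability. -/
theorem coeffMap_mem_regE (hx : IsGen Kbar (jF N)) (W : Divisor Kbar (FF N))
    (hW : ∀ v : Place Kbar (FF N), W v = v.ordDifferential (D Kbar (FF N) (jF N)))
    (σ : Kbar ≃ₐ[ℚ] Kbar) (s : LaurentSeries Kbar) (hs : s ∈ regE N W) :
    coeffMap (σ : Kbar →+* Kbar) s ∈ regE N W := by
  rw [mem_regE_iff] at hs ⊢
  obtain ⟨h, hh, rfl⟩ := hs
  exact ⟨arithmeticGalois (modularFunctionFieldFull N) σ • h,
    GaloisReg.galois_smul_mem_riemannRochSpace N hx W hW σ hh, coe_arithmeticGalois_smul _ σ h⟩

end Fermat.Agent.S23.RegSpace
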