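/-
PROGRAM C / S23 (helper19): `HasIntegralStructure N 2` from
* `hx`   : `jF N` generates `FF N` (Degree),
* `hLOW` : the dictionary regular differential `h dj` ⇒ cusp form with `q`-expansion `ι(h θ)` (LOW),
* `hdim` : `dim S₂(Γ₀(N)) ≤ dim L(div dj)` (S20 + S24 + Riemann–Roch),
* `hBD`  : bounded denominators (S22 ⇒ rational `q`-expansion lies in the `ℂ`-span of the lattice).
-/
import Mathlib
import Fermat.Prelude.Def_CuspForm_IntegralStructure
import Fermat.Agent.S23.RationalBasis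
import Fermat.Agent.S23.RegSpace

set_option autoImplicit false
set_option synthInstance.maxHeartbeats 400000
set_option linter.style.haveILetI false
set_option linter.unusedSectionVars false

namespace Fermat.Agent.S23.PreAssembly

open Module AlgebraicCurve KaehlerDifferential ModularCurve CongruenceSubgroup
open Fermat.Agent.X0 Fermat.Agent.X0.FF

variable {N : ℕ} [NeZero N]

/-- Rational spanning family ⇒ integral structure, given bounded denominators. -/
theorem hasIntegralStructure_of_spanning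
    (hBD : ∀ f : CuspForm (Gamma0 N) 2,
      (∀ n : ℕ, ∃ r : ℚ, ModularFormClass.qCoeff f n = (r : ℂ)) →
      f ∈ Submodule.span ℂ ((CuspForm.intLattice N 2 :
        Submodule ℤ (CuspForm (Gamma0 N) 2)) : Set (CuspForm (Gamma0 N) 2)))
    (hspan : ∃ (d : ℕ) (f : Fin d → CuspForm (Gamma0 N) 2),
      (∀ i n, ∃ r : ℚ, ModularFormClass.qCoeff (f i) n = (r : ℂ)) ∧
      Submodule.span ℂ (Set.range f) = ⊤) :
    CuspForm.HasIntegralStructure N 2 := by
  obtain ⟨d, f, hrat, htop⟩ := hspan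
  unfold CuspForm.HasIntegralStructure
  rw [eq_top_iff, ← htop]
  apply Submodule.span_le.mpr
  rintro _ ⟨i, rfl⟩
  exact hBD (f i) (hrat i)

/-- **S23 modulo its inputs** (`θ` fixed by the coefficientwise Galois action). -/
theorem hasIntegralStructure_of_fixed [FiniteDimensional ℂ (CuspForm (Gamma0 N) 2)]
    (hx : IsGen Kbar (jF N)) (W : Divisor Kbar (FF N))
    (hW : ∀ v : Place Kbar (FF N), W v = v.ordDifferential (D Kbar (FF N) (jF N)))
    [FiniteDimensional Kbar (riemannRochSpace W)]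
    (θ : LaurentSeries Kbar) (hθ0 : θ ≠ 0)
    (hθσ : ∀ σ : Kbar ≃ₐ[ℚ] Kbar, coeffMap (σ : Kbar →+* Kbar) θ = θ)
    (hLOW : ∀ h : FF N, (∀ v : Place Kbar (FF N), 0 ≤ v.ordDifferential (h • D Kbar (FF N) (jF N))) →
      (∀ k : ℤ, k < 0 → (((h : FF N) : LaurentSeries Kbar) * θ).coeff k = 0) ∧
      ∃ f : CuspForm (Gamma0 N) 2, ∀ n : ℕ,
        ModularFormClass.qCoeff f n = iotaK ((((h : FF N) : LaurentSeries Kbar) * θ).coeff (n : ℤ)))
    (hdim : finrank ℂ (CuspForm (Gamma0 N) 2) ≤ finrank Kbar (riemannRochSpace W))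
    (hBD : ∀ f : CuspForm (Gamma0 N) 2,
      (∀ n : ℕ, ∃ r : ℚ, ModularFormClass.qCoeff f n = (r : ℂ)) →
      f ∈ Submodule.span ℂ ((CuspForm.intLattice N 2 :
        Submodule ℤ (CuspForm (Gamma0 N) 2)) : Set (CuspForm (Gamma0 N) 2))) :
    CuspForm.HasIntegralStructure N 2 := by
  haveI := RegSpace.finiteDimensional_regE N W
  apply hasIntegralStructure_of_spanning hBD
  have hreg : ∀ s ∈ RegSpace.regE N W, ∃ h : FF N,
      (∀ v : Place Kbar (FF N), 0 ≤ v.ordDifferential (h • D Kbar (FF N) (jF N))) ∧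
      (h : LaurentSeries Kbar) = s := by
    intro s hs
    obtain ⟨h, hh, rfl⟩ := (RegSpace.mem_regE_iff N W _).mp hs
    exact ⟨h, (GaloisReg.mem_riemannRochSpace_iff_regular hx W hW h).mp hh, rfl⟩
  refine RationalBasis.exists_rational_spanning θ hθ0 hθσ (RegSpace.regE N W)
    (fun σ s hs => RegSpace.coeffMap_mem_regE N hx W hW σ s hs) ?_ ?_ ?_
  · intro s hs k hk
    obtain ⟨h, hh, rfl⟩ := hreg s hs
    exact (hLOW h hh).1 k hk
  · intro s hs
    obtain ⟨h, hh, rfl⟩ := hreg s hs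
    exact (hLOW h hh).2
  · rw [RegSpace.finrank_regE]
    exact hdim

/-- **S23 modulo its inputs** (`θ` with rational coefficients). -/
theorem hasIntegralStructure [FiniteDimensional ℂ (CuspForm (Gamma0 N) 2)]
    (hx : IsGen Kbar (jF N)) (W : Divisor Kbar (FF N))
    (hW : ∀ v : Place Kbar (FF N), W v = v.ordDifferential (D Kbar (FF N) (jF N)))
    [FiniteDimensional Kbar (riemannRochSpace W)]
    (θ : LaurentSeries Kbar) (hθ0 : θ ≠ 0)
    (hθrat : ∀ k : ℤ, ∃ r : ℚ, θ.coeff k = algebraMap ℚ Kbar r)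
    (hLOW : ∀ h : FF N, (∀ v : Place Kbar (FF N), 0 ≤ v.ordDifferential (h • D Kbar (FF N) (jF N))) →
      (∀ k : ℤ, k < 0 → (((h : FF N) : LaurentSeries Kbar) * θ).coeff k = 0) ∧
      ∃ f : CuspForm (Gamma0 N) 2, ∀ n : ℕ,
        ModularFormClass.qCoeff f n = iotaK ((((h : FF N) : LaurentSeries Kbar) * θ).coeff (n : ℤ)))
    (hdim : finrank ℂ (CuspForm (Gamma0 N) 2) ≤ finrank Kbar (riemannRochSpace W))
    (hBD : ∀ f : CuspForm (Gamma0 N) 2,
      (∀ n : ℕ, ∃ r : ℚ, ModularFormClass.qCoeff f n = (r : ℂ)) →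
      f ∈ Submodule.span ℂ ((CuspForm.intLattice N 2 :
        Submodule ℤ (CuspForm (Gamma0 N) 2)) : Set (CuspForm (Gamma0 N) 2))) :
    CuspForm.HasIntegralStructure N 2 :=
  hasIntegralStructure_of_fixed hx W hW θ hθ0
    (fun σ => GaloisReg.coeffMap_eq_self_of_rat σ θ hθrat) hLOW hdim hBD

end Fermat.Agent.S23.PreAssembly
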