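/-
C-S23 (S23-BD), helper2: bounded denominators from the finiteness of the Hecke algebra (S22).

* `exists_hecke_qCoeff_one`: for `n ≥ 1` there is `t` in the full Hecke algebra of level `N`,
  weight `2`, with `a₁(t f) = aₙ(f)` for all cusp forms `f`.
* `isRat_apply_of_mem_heckeAlgebra`: Hecke operators preserve rationality of `q`-coefficients.
* `exists_nat_smul_int`: a cusp form with rational `q`-coefficients has an integral multiple.
* `mem_span_intLattice`, `hasIntegralStructure_of_span_rational`,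
  `hasIntegralStructure_of_rational_family`: the consumer forms for `S23`.
-/
import Mathlib
import Fermat.Prelude.Def_CuspForm_IntegralStructure
import Fermat.Prelude.Def_CuspForm_HeckeAlgebra
import Fermat.Agent.S49.QExp
import Fermat.Agent.S22

set_option autoImplicit false

open CuspForm CongruenceSubgroup ModularFormClass

namespace Fermat.Agent.S23.BoundedDenom

variable {N : ℕ} [NeZero N]

/-! ### (a) `aₙ(f) = a₁(tₙ f)` -/

theorem exists_hecke_qCoeff_one (n : ℕ) (hn : 1 ≤ n) :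
    ∃ t ∈ heckeAlgebra N 2 ∅, ∀ f : CuspForm (Gamma0 N) 2,
      qCoeff ⇑(t f) 1 = qCoeff ⇑f n := by
  induction n using Nat.strong_induction_on with
  | _ n ih =>
    rcases eq_or_lt_of_le hn with h1 | h1
    · subst h1
      exact ⟨1, Subalgebra.one_mem _, fun f => rfl⟩
    · have hℓp : n.minFac.Prime := Nat.minFac_prime (by omega)
      set ℓ := n.minFac with hℓ
      have hmul : n / ℓ * ℓ = n := Nat.div_mul_cancel (Nat.minFac_dvd n)
      set m := n / ℓ with hm
      have hℓ2 : 2 ≤ ℓ := hℓp.two_le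
      have hm_pos : 1 ≤ m := by
        rcases Nat.eq_zero_or_pos m with h0 | h0
        · rw [h0, zero_mul] at hmul; omega
        · exact h0
      have hm_lt : m < n := by nlinarith
      obtain ⟨tm, htm, htm'⟩ := ih m hm_lt hm_pos
      by_cases hℓN : ℓ ∣ N
      · refine ⟨tm * heckeULin 2 hℓN,
          mul_mem htm (heckeULin_mem_heckeAlgebra hℓp hℓN (Set.notMem_empty _)), fun f => ?_⟩
        rw [Module.End.mul_apply, htm', S49.qCoeff_heckeULin hℓp hℓN, hmul]
      · have hT : heckeTLin 2 hℓp hℓN ∈ heckeAlgebra N 2 ∅ :=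
          heckeTLin_mem_heckeAlgebra hℓp hℓN (Set.notMem_empty _)
        by_cases hdiv : ℓ ∣ m
        · have hm'_pos : 1 ≤ m / ℓ := Nat.div_pos (Nat.le_of_dvd hm_pos hdiv) (by omega)
          have hm'_lt : m / ℓ < n := lt_of_le_of_lt (Nat.div_le_self _ _) hm_lt
          obtain ⟨tm', htm'1, htm'2⟩ := ih (m / ℓ) hm'_lt hm'_pos
          refine ⟨tm * heckeTLin 2 hℓp hℓN - (ℓ : ℤ) • tm',
            sub_mem (mul_mem htm hT) (Subalgebra.zsmul_mem _ htm'1 _), fun f => ?_⟩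
          rw [LinearMap.sub_apply, Module.End.mul_apply, LinearMap.smul_apply, S49.qCoeff_sub,
            S49.qCoeff_zsmul, htm', htm'2, S49.qCoeff_heckeTLin hℓp hℓN, if_pos hdiv, hmul]
          push_cast
          ring
        · refine ⟨tm * heckeTLin 2 hℓp hℓN, mul_mem htm hT, fun f => ?_⟩
          rw [Module.End.mul_apply, htm', S49.qCoeff_heckeTLin hℓp hℓN, if_neg hdiv, hmul, add_zero]

/-! ### (b) rationality is preserved by the Hecke algebra -/

/-- All `q`-coefficients are rational. -/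
def IsRat (f : CuspForm (Gamma0 N) 2) : Prop := ∀ n : ℕ, ∃ r : ℚ, qCoeff ⇑f n = (r : ℂ)

omit [NeZero N] in
theorem isRat_heckeTLin {ℓ : ℕ} (hℓ : ℓ.Prime) (hℓN : ¬ ℓ ∣ N) {f : CuspForm (Gamma0 N) 2}
    (hf : IsRat f) : IsRat (heckeTLin 2 hℓ hℓN f) := by
  intro n
  rw [S49.qCoeff_heckeTLin hℓ hℓN]
  obtain ⟨r1, hr1⟩ := hf (n * ℓ)
  obtain ⟨r2, hr2⟩ := hf (n / ℓ)
  by_cases h : ℓ ∣ n
  · exact ⟨r1 + ℓ * r2, by rw [if_pos h, hr1, hr2]; push_cast; ring⟩
  · exact ⟨r1, by rw [if_neg h, hr1, add_zero]⟩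

theorem isRat_heckeULin {q : ℕ} (hq : q.Prime) (hqN : q ∣ N) {f : CuspForm (Gamma0 N) 2}
    (hf : IsRat f) : IsRat (heckeULin 2 hqN f) := by
  intro n
  rw [S49.qCoeff_heckeULin hq hqN]
  exact hf (n * q)

omit [NeZero N] in
theorem isRat_zsmul (c : ℤ) {f : CuspForm (Gamma0 N) 2} (hf : IsRat f) : IsRat (c • f) := by
  intro n
  obtain ⟨r, hr⟩ := hf n
  exact ⟨c * r, by rw [S49.qCoeff_zsmul, hr]; push_cast; ring⟩

omit [NeZero N] in
theorem isRat_add {f g : CuspForm (Gamma0 N) 2} (hf : IsRat f) (hg : IsRat g) :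
    IsRat (f + g) := by
  intro n
  obtain ⟨r1, hr1⟩ := hf n
  obtain ⟨r2, hr2⟩ := hg n
  exact ⟨r1 + r2, by rw [S49.qCoeff_add, hr1, hr2]; push_cast; ring⟩

/-- The endomorphisms preserving rationality form a `ℤ`-subalgebra. -/
def ratSubalgebra (N : ℕ) [NeZero N] :
    Subalgebra ℤ (Module.End ℂ (CuspForm (Gamma0 N) 2)) where
  carrier := {t | ∀ f : CuspForm (Gamma0 N) 2, IsRat f → IsRat (t f)}
  mul_mem' := fun {a b} ha hb f hf => by
    rw [Module.End.mul_apply]; exact ha _ (hb f hf)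
  one_mem' := fun f hf => hf
  add_mem' := fun {a b} ha hb f hf => by
    rw [LinearMap.add_apply]; exact isRat_add (ha f hf) (hb f hf)
  zero_mem' := fun f _ n => ⟨0, by rw [LinearMap.zero_apply, S49.qCoeff_zero_form]; simp⟩
  algebraMap_mem' := fun c f hf => by
    rw [Module.algebraMap_end_apply]; exact isRat_zsmul c hf

theorem heckeAlgebra_le_ratSubalgebra (S : Set ℕ) : heckeAlgebra N 2 S ≤ ratSubalgebra N := by
  refine Algebra.adjoin_le ?_
  rintro t (⟨ℓ, hℓ, hℓN, -, rfl⟩ | ⟨q, hqN, hq, -, rfl⟩)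
  · exact fun f hf => isRat_heckeTLin hℓ hℓN hf
  · exact fun f hf => isRat_heckeULin hq hqN hf

theorem isRat_apply_of_mem_heckeAlgebra {S : Set ℕ}
    {t : Module.End ℂ (CuspForm (Gamma0 N) 2)} (ht : t ∈ heckeAlgebra N 2 S)
    {f : CuspForm (Gamma0 N) 2} (hf : IsRat f) : IsRat (t f) :=
  heckeAlgebra_le_ratSubalgebra S ht f hf

/-! ### A finitely generated group of rational numbers has a common denominator -/

theorem exists_common_denominator (M : Submodule ℤ ℂ) (hM : M.FG)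
    (hrat : ∀ x ∈ M, ∃ r : ℚ, x = (r : ℂ)) :
    ∃ D : ℕ, 0 < D ∧ ∀ x ∈ M, ∃ m : ℤ, (D : ℂ) * x = (m : ℂ) := by
  classical
  obtain ⟨s, hs⟩ := hM
  have hsM : ∀ x ∈ s, x ∈ M := fun x hx => hs ▸ Submodule.subset_span hx
  choose! r hr using hrat
  refine ⟨∏ x ∈ s, (r x).den, Finset.prod_pos fun x _ => (r x).den_pos, fun x hx => ?_⟩
  rw [← hs] at hx
  induction hx using Submodule.span_induction with
  | mem y hy =>
    obtain ⟨c, hc⟩ : (r y).den ∣ ∏ x ∈ s, (r x).den := Finset.dvd_prod_of_mem _ hy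
    refine ⟨c * (r y).num, ?_⟩
    have h1 : y = (r y : ℂ) := hr y (hsM y hy)
    have h2 : ((r y).den : ℂ) * (r y : ℂ) = ((r y).num : ℂ) := by
      have := Rat.den_mul_eq_num (r y)
      exact_mod_cast this
    rw [hc]
    push_cast
    calc ((r y).den : ℂ) * (c : ℂ) * y = (c : ℂ) * (((r y).den : ℂ) * (r y : ℂ)) := by
          rw [← h1]; ring
      _ = (c : ℂ) * ((r y).num : ℂ) := by rw [h2]
  | zero => exact ⟨0, by simp⟩
  | add y z _ _ hy hz =>
    obtain ⟨a, ha⟩ := hy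
    obtain ⟨b, hb⟩ := hz
    exact ⟨a + b, by rw [mul_add, ha, hb]; push_cast; ring⟩
  | smul c y _ hy =>
    obtain ⟨a, ha⟩ := hy
    refine ⟨c * a, ?_⟩
    rw [zsmul_eq_mul, mul_left_comm, ha]
    push_cast
    ring

/-! ### (c) bounded denominators -/

/-- The `ℤ`-linear map `t ↦ a₁(t f)` on the Hecke algebra. -/
noncomputable def evalOne (f : CuspForm (Gamma0 N) 2) : heckeAlgebra N 2 ∅ →ₗ[ℤ] ℂ where
  toFun t := qCoeff ⇑((t : Module.End ℂ (CuspForm (Gamma0 N) 2)) f) 1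
  map_add' t1 t2 := by
    show qCoeff ⇑(((t1 + t2 : heckeAlgebra N 2 ∅) : Module.End ℂ _) f) 1 = _
    rw [Subalgebra.coe_add, LinearMap.add_apply, S49.qCoeff_add]
  map_smul' c t := by
    show qCoeff ⇑(((c • t : heckeAlgebra N 2 ∅) : Module.End ℂ _) f) 1 = _
    rw [Subalgebra.coe_smul, LinearMap.smul_apply, S49.qCoeff_zsmul]
    simp

theorem exists_nat_smul_int (f : CuspForm (Gamma0 N) 2)
    (hf : ∀ n : ℕ, ∃ r : ℚ, qCoeff ⇑f n = (r : ℂ)) :
    ∃ D : ℕ, 0 < D ∧ ∀ n : ℕ, ∃ m : ℤ, qCoeff ⇑((D : ℂ) • f) n = (m : ℂ) := by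
  have : Module.Finite ℤ (heckeAlgebra N 2 ∅) := Fermat.Agent.S22.result N 2 ∅
  have hfg : (LinearMap.range (evalOne f)).FG := by
    rw [LinearMap.range_eq_map]
    exact (Module.Finite.fg_top).map _
  have hrat : ∀ x ∈ LinearMap.range (evalOne f), ∃ r : ℚ, x = (r : ℂ) := by
    rintro _ ⟨t, rfl⟩
    exact isRat_apply_of_mem_heckeAlgebra t.2 hf 1
  obtain ⟨D, hD, hDint⟩ := exists_common_denominator _ hfg hrat
  refine ⟨D, hD, fun n => ?_⟩
  rw [S49.qCoeff_smul]
  rcases Nat.eq_zero_or_pos n with rfl | hn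
  · exact ⟨0, by rw [S49.qCoeff_zero_index]; simp⟩
  · obtain ⟨t, ht, htf⟩ := exists_hecke_qCoeff_one (N := N) n hn
    rw [← htf f]
    exact hDint _ ⟨⟨t, ht⟩, rfl⟩

/-! ### (d) consumer forms -/

theorem mem_span_intLattice (f : CuspForm (Gamma0 N) 2)
    (hf : ∀ n : ℕ, ∃ r : ℚ, qCoeff ⇑f n = (r : ℂ)) :
    f ∈ Submodule.span ℂ ((intLattice N 2 : Submodule ℤ (CuspForm (Gamma0 N) 2)) :
      Set (CuspForm (Gamma0 N) 2)) := by
  obtain ⟨D, hD, hDint⟩ := exists_nat_smul_int f hf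
  have hmem : (D : ℂ) • f ∈ (intLattice N 2 : Submodule ℤ (CuspForm (Gamma0 N) 2)) :=
    Submodule.subset_span hDint
  have hD' : (D : ℂ) ≠ 0 := Nat.cast_ne_zero.mpr hD.ne'
  have : f = (D : ℂ)⁻¹ • ((D : ℂ) • f) := by rw [smul_smul, inv_mul_cancel₀ hD', one_smul]
  rw [this]
  exact Submodule.smul_mem _ _ (Submodule.subset_span hmem)

theorem hasIntegralStructure_of_span_rational
    (h : Submodule.span ℂ {f : CuspForm (Gamma0 N) 2 | IsRat f} = ⊤) :
    HasIntegralStructure N 2 := by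
  unfold HasIntegralStructure
  rw [eq_top_iff, ← h, Submodule.span_le]
  exact fun f hf => mem_span_intLattice f hf

theorem hasIntegralStructure_of_rational_family {ι : Type*} (f : ι → CuspForm (Gamma0 N) 2)
    (hrat : ∀ i n, ∃ r : ℚ, qCoeff ⇑(f i) n = (r : ℂ))
    (hspan : Submodule.span ℂ (Set.range f) = ⊤) : HasIntegralStructure N 2 := by
  refine hasIntegralStructure_of_span_rational ?_
  rw [eq_top_iff, ← hspan]
  refine Submodule.span_mono ?_
  rintro _ ⟨i, rfl⟩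
  exact hrat i

end Fermat.Agent.S23.BoundedDenom
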