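/-
(S23-BD) Bounded denominators for weight-2 cusp forms on `Γ₀(N)` from the finiteness of the
Hecke algebra (S22): a cusp form with rational `q`-coefficients has an integral multiple, hence
lies in the `ℂ`-span of the integral lattice.  Consequently a spanning family of forms with
rational `q`-coefficients gives `CuspForm.HasIntegralStructure N 2`.
-/
import Mathlib
import Fermat.Prelude.Def_CuspForm_HeckeAlgebra
import Fermat.Prelude.Def_CuspForm_IntegralStructure
import Fermat.Agent.S49.H25QCoeff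
import Fermat.Agent.S22

set_option autoImplicit false

open CuspForm CongruenceSubgroup ModularFormClass

namespace Fermat.Agent.S23.BoundedDenom15

open Fermat.Agent.S49.H25

variable {N : ℕ} [NeZero N]

/-- All `q`-coefficients are rational. -/
def RatCoeff (f : CuspForm (Gamma0 N) 2) : Prop :=
  ∀ n : ℕ, ∃ r : ℚ, qCoeff f n = (r : ℂ)

theorem ratCoeff_zero : RatCoeff (0 : CuspForm (Gamma0 N) 2) := fun n =>
  ⟨0, by rw [qCoeff_zero_form]; simp⟩

theorem RatCoeff.add {f g : CuspForm (Gamma0 N) 2} (hf : RatCoeff f) (hg : RatCoeff g) :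
    RatCoeff (f + g) := fun n => by
  obtain ⟨a, ha⟩ := hf n
  obtain ⟨b, hb⟩ := hg n
  exact ⟨a + b, by rw [qCoeff_add, ha, hb]; push_cast; ring⟩

theorem RatCoeff.zsmul {f : CuspForm (Gamma0 N) 2} (hf : RatCoeff f) (c : ℤ) :
    RatCoeff (c • f) := fun n => by
  obtain ⟨a, ha⟩ := hf n
  exact ⟨c * a, by rw [qCoeff_zsmul, ha]; push_cast; ring⟩

theorem RatCoeff.heckeTLin {f : CuspForm (Gamma0 N) 2} (hf : RatCoeff f) {p : ℕ} (hp : p.Prime)
    (hpN : ¬ p ∣ N) : RatCoeff (heckeTLin 2 hp hpN f) := fun n => by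
  rw [qCoeff_heckeTLin hp hpN f n]
  obtain ⟨a, ha⟩ := hf (n * p)
  obtain ⟨b, hb⟩ := hf (n / p)
  by_cases h : p ∣ n
  · exact ⟨a + p * b, by rw [if_pos h, ha, hb]; push_cast; ring⟩
  · exact ⟨a, by rw [if_neg h, ha]; simp⟩

theorem RatCoeff.heckeULin {f : CuspForm (Gamma0 N) 2} (hf : RatCoeff f) {p : ℕ} (hp : p.Prime)
    (hpN : p ∣ N) : RatCoeff (heckeULin 2 hpN f) := fun n => by
  rw [qCoeff_heckeULin hp hpN f n]
  exact hf (n * p)

/-- (b) Every element of the Hecke algebra preserves rationality of `q`-coefficients. -/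
theorem RatCoeff.apply_of_mem {S : Set ℕ}
    {t : Module.End ℂ (CuspForm (Gamma0 N) 2)} (ht : t ∈ heckeAlgebra N 2 S)
    {f : CuspForm (Gamma0 N) 2} (hf : RatCoeff f) : RatCoeff (t f) := by
  unfold heckeAlgebra at ht
  induction ht using Algebra.adjoin_induction generalizing f with
  | mem x hx =>
    rcases hx with ⟨ℓ, hℓ, hℓN, -, rfl⟩ | ⟨q, hqN, hq, -, rfl⟩
    · exact hf.heckeTLin hℓ hℓN
    · exact hf.heckeULin hq hqN
  | algebraMap z =>
    have : (algebraMap ℤ (Module.End ℂ (CuspForm (Gamma0 N) 2)) z) f = z • f := by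
      simp
    rw [this]
    exact hf.zsmul z
  | add x y _ _ hx hy =>
    rw [LinearMap.add_apply]
    exact (hx hf).add (hy hf)
  | mul x y _ _ hx hy =>
    rw [Module.End.mul_apply]
    exact hx (hy hf)

/-- (a) For every `n ≥ 1` there is a Hecke operator `t` (in the full Hecke algebra, `S = ∅`)
with `a₁(t f) = aₙ(f)` for all `f`. -/
theorem exists_hecke_qCoeff_one (n : ℕ) (hn : 0 < n) :
    ∃ t ∈ heckeAlgebra N 2 (∅ : Set ℕ), ∀ f : CuspForm (Gamma0 N) 2,
      qCoeff (t f) 1 = qCoeff f n := by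
  induction n using Nat.strong_induction_on with
  | _ n ih =>
    rcases Nat.eq_or_lt_of_le (Nat.one_le_iff_ne_zero.mpr hn.ne') with h1 | h1
    · exact ⟨1, Subalgebra.one_mem _, fun f => by rw [← h1]; rfl⟩
    · -- `n > 1`: split off the smallest prime factor
      have hn1 : n ≠ 1 := h1.ne'
      set p := n.minFac with hp_def
      have hp : p.Prime := Nat.minFac_prime hn1
      obtain ⟨m, hm⟩ : p ∣ n := Nat.minFac_dvd n
      have hm0 : 0 < m := by
        rcases Nat.eq_zero_or_pos m with h | h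
        · rw [h, mul_zero] at hm; omega
        · exact h
      have hmn : m < n := by
        rw [hm]; exact lt_mul_of_one_lt_left hm0 hp.one_lt
      obtain ⟨tm, htm, htm'⟩ := ih m hmn hm0
      by_cases hpN : p ∣ N
      · -- `U_p`
        refine ⟨tm * heckeULin 2 hpN,
          Subalgebra.mul_mem _ htm (heckeULin_mem_heckeAlgebra hp hpN (Set.notMem_empty p)), ?_⟩
        intro f
        rw [Module.End.mul_apply, htm', qCoeff_heckeULin hp hpN f m, hm, mul_comm]
      · -- `T_p`
        by_cases hpm : p ∣ m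
        · obtain ⟨m', hm'⟩ := hpm
          have hm'0 : 0 < m' := by
            rcases Nat.eq_zero_or_pos m' with h | h
            · rw [h, mul_zero] at hm'; omega
            · exact h
          have hm'n : m' < n := lt_trans (by rw [hm']; exact lt_mul_of_one_lt_left hm'0 hp.one_lt) hmn
          obtain ⟨tm', htm'1, htm'2⟩ := ih m' hm'n hm'0
          refine ⟨tm * heckeTLin 2 hp hpN - (p : ℤ) • tm',
            Subalgebra.sub_mem _
              (Subalgebra.mul_mem _ htm (heckeTLin_mem_heckeAlgebra hp hpN (Set.notMem_empty p)))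
              (Subalgebra.zsmul_mem _ htm'1 _), ?_⟩
          intro f
          rw [LinearMap.sub_apply, qCoeff_sub, Module.End.mul_apply, htm',
            qCoeff_heckeTLin hp hpN f m, LinearMap.smul_apply, qCoeff_zsmul, htm'2,
            if_pos ⟨m', hm'⟩]
          have e1 : m / p = m' := by rw [hm', Nat.mul_div_cancel_left _ hp.pos]
          rw [e1, hm, mul_comm p m]
          push_cast
          ring
        · refine ⟨tm * heckeTLin 2 hp hpN,
            Subalgebra.mul_mem _ htm (heckeTLin_mem_heckeAlgebra hp hpN (Set.notMem_empty p)), ?_⟩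
          intro f
          rw [Module.End.mul_apply, htm', qCoeff_heckeTLin hp hpN f m, if_neg hpm, add_zero, hm,
            mul_comm]

/-- (c) MAIN: a cusp form with rational `q`-coefficients has a positive integer multiple with
integral `q`-coefficients. -/
theorem exists_nat_smul_int (f : CuspForm (Gamma0 N) 2) (hf : RatCoeff f) :
    ∃ D : ℕ, 0 < D ∧ ∀ n : ℕ, ∃ m : ℤ, qCoeff (((D : ℂ) • f : CuspForm (Gamma0 N) 2)) n = (m : ℂ) := by
  classical
  have hfin : Module.Finite ℤ (heckeAlgebra N 2 (∅ : Set ℕ)) := Fermat.Agent.S22.result N 2 ∅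
  obtain ⟨s, hs⟩ := hfin.fg_top
  -- rational value of `a₁(t f)` for each `t`
  have hrat : ∀ t : heckeAlgebra N 2 (∅ : Set ℕ), ∃ r : ℚ,
      qCoeff ((t : Module.End ℂ (CuspForm (Gamma0 N) 2)) f) 1 = (r : ℂ) :=
    fun t => (hf.apply_of_mem t.2) 1
  choose r hr using hrat
  set D : ℕ := ∏ t ∈ s, (r t).den with hD
  have hD0 : 0 < D := Finset.prod_pos fun t _ => (r t).den_pos
  -- `D * a₁(t f)` is an integer for every `t`
  have hint : ∀ t : heckeAlgebra N 2 (∅ : Set ℕ), ∃ m : ℤ,
      (D : ℂ) * qCoeff ((t : Module.End ℂ (CuspForm (Gamma0 N) 2)) f) 1 = (m : ℂ) := by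
    intro t
    have ht : t ∈ Submodule.span ℤ (s : Set (heckeAlgebra N 2 (∅ : Set ℕ))) := by
      rw [hs]; exact Submodule.mem_top
    induction ht using Submodule.span_induction with
    | mem x hx =>
      have hx' : x ∈ s := hx
      obtain ⟨c, hc⟩ : (r x).den ∣ D := Finset.dvd_prod_of_mem _ hx'
      refine ⟨(c : ℤ) * (r x).num, ?_⟩
      rw [hr x, hc]
      have hden : ((r x).den : ℂ) ≠ 0 := by exact_mod_cast (r x).den_ne_zero
      have hq : ((r x : ℚ) : ℂ) = ((r x).num : ℂ) / ((r x).den : ℂ) := by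
        conv_lhs => rw [← Rat.num_div_den (r x)]
        push_cast
        rfl
      rw [hq]
      push_cast
      field_simp
    | zero =>
      refine ⟨0, ?_⟩
      have : ((0 : heckeAlgebra N 2 (∅ : Set ℕ)) : Module.End ℂ (CuspForm (Gamma0 N) 2)) f = 0 := by
        simp
      rw [this, qCoeff_zero_form]; simp
    | add x y _ _ hx hy =>
      obtain ⟨a, ha⟩ := hx
      obtain ⟨b, hb⟩ := hy
      refine ⟨a + b, ?_⟩
      have : ((x + y : heckeAlgebra N 2 (∅ : Set ℕ)) : Module.End ℂ (CuspForm (Gamma0 N) 2)) f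
          = (x : Module.End ℂ (CuspForm (Gamma0 N) 2)) f
            + (y : Module.End ℂ (CuspForm (Gamma0 N) 2)) f := by
        simp
      rw [this, qCoeff_add, mul_add, ha, hb]; push_cast; ring
    | smul c x _ hx =>
      obtain ⟨a, ha⟩ := hx
      refine ⟨c * a, ?_⟩
      have : ((c • x : heckeAlgebra N 2 (∅ : Set ℕ)) : Module.End ℂ (CuspForm (Gamma0 N) 2)) f
          = c • ((x : Module.End ℂ (CuspForm (Gamma0 N) 2)) f) := by
        simp
      rw [this, qCoeff_zsmul, mul_left_comm, ha]; push_cast; ring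
  refine ⟨D, hD0, fun n => ?_⟩
  rw [qCoeff_smul]
  rcases Nat.eq_zero_or_pos n with rfl | hn
  · exact ⟨0, by rw [qCoeff_cusp_zero]; simp⟩
  · obtain ⟨t, ht, htf⟩ := exists_hecke_qCoeff_one (N := N) n hn
    obtain ⟨m, hm⟩ := hint ⟨t, ht⟩
    exact ⟨m, by rw [← htf f]; exact hm⟩

/-- (d) A cusp form with rational `q`-coefficients lies in the `ℂ`-span of the integral lattice. -/
theorem mem_span_intLattice_of_ratCoeff (f : CuspForm (Gamma0 N) 2) (hf : RatCoeff f) :
    f ∈ Submodule.span ℂ ((CuspForm.intLattice N 2 :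
      Submodule ℤ (CuspForm (Gamma0 N) 2)) : Set (CuspForm (Gamma0 N) 2)) := by
  obtain ⟨D, hD0, hD⟩ := exists_nat_smul_int f hf
  have hmem : ((D : ℂ) • f : CuspForm (Gamma0 N) 2) ∈ CuspForm.intLattice N 2 :=
    mem_intLattice_of_intCoeff hD
  have hDne : (D : ℂ) ≠ 0 := by exact_mod_cast hD0.ne'
  have : f = ((D : ℂ))⁻¹ • ((D : ℂ) • f : CuspForm (Gamma0 N) 2) := by
    rw [smul_smul, inv_mul_cancel₀ hDne, one_smul]
  rw [this]
  exact Submodule.smul_mem _ _ (Submodule.subset_span hmem)

/-- (e) If the forms with rational `q`-coefficients span, then `S₂(Γ₀(N))` has an integral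
structure. -/
theorem hasIntegralStructure_of_ratCoeff_span
    (hspan : Submodule.span ℂ {f : CuspForm (Gamma0 N) 2 | RatCoeff f} = ⊤) :
    CuspForm.HasIntegralStructure N 2 := by
  unfold CuspForm.HasIntegralStructure
  rw [eq_top_iff, ← hspan]
  exact Submodule.span_le.mpr fun f hf => mem_span_intLattice_of_ratCoeff f hf

/-- (e') Family version (the shape of `S23/RationalBasis`): a spanning family of cusp forms with
rational `q`-coefficients gives an integral structure. -/
theorem hasIntegralStructure_of_family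
    (h : ∃ (ι : Type) (_ : Fintype ι) (f : ι → CuspForm (Gamma0 N) 2),
      (∀ i n, ∃ r : ℚ, qCoeff (f i) n = (r : ℂ)) ∧ Submodule.span ℂ (Set.range f) = ⊤) :
    CuspForm.HasIntegralStructure N 2 := by
  obtain ⟨ι, _, f, hf, hspan⟩ := h
  refine hasIntegralStructure_of_ratCoeff_span ?_
  rw [eq_top_iff, ← hspan]
  refine Submodule.span_mono ?_
  rintro _ ⟨i, rfl⟩
  exact hf i

end Fermat.Agent.S23.BoundedDenom15
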