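/-
PROGRAM C / S23 (helper19): Galois descent for finite-dimensional spaces of sequences
(pivot / reduced-row-echelon argument).  A finite-dimensional `L`-subspace `V ⊆ (κ → L)` stable
under the coordinatewise action of a group `G` of ring automorphisms of `L` has a basis of
`G`-fixed vectors.
-/
import Mathlib

set_option autoImplicit false
set_option linter.style.haveILetI false

namespace Fermat.Agent.S23.FixedBasis

open Module

variable {L : Type*} [Field L] {G : Type*} [Group G] [MulSemiringAction G L] {κ : Type*}

/-- Evaluation at `n` as a linear functional on a space of sequences. -/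
noncomputable def evalAt (V : Submodule L (κ → L)) (n : κ) : Dual L V :=
  (LinearMap.proj n).comp V.subtype

@[simp] theorem evalAt_apply (V : Submodule L (κ → L)) (n : κ) (v : V) :
    evalAt V n v = (v : κ → L) n := rfl

/-- The evaluations span the dual of a finite-dimensional space of sequences. -/
theorem span_range_evalAt (V : Submodule L (κ → L)) [FiniteDimensional L V] :
    Submodule.span L (Set.range (evalAt V)) = ⊤ := by
  have h1 : (Submodule.span L (Set.range (evalAt V))).dualCoannihilator = ⊥ := by
    rw [eq_bot_iff]
    intro v hv
    rw [Submodule.mem_dualCoannihilator] at hv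
    rw [Submodule.mem_bot]
    apply Subtype.ext
    funext n
    exact hv (evalAt V n) (Submodule.subset_span ⟨n, rfl⟩)
  have h2 := Subspace.dualCoannihilator_dualAnnihilator_eq
    (W := Submodule.span L (Set.range (evalAt V)))
  rw [h1, Submodule.dualAnnihilator_bot] at h2
  exact h2.symm

/-- **Descent (pivot argument).** -/
theorem exists_fixed_basis (V : Submodule L (κ → L)) [FiniteDimensional L V]
    (hV : ∀ (σ : G) (v : κ → L), v ∈ V → (fun n => σ • v n) ∈ V) :
    ∃ b : Fin (finrank L V) → (κ → L), (∀ i, b i ∈ V) ∧ LinearIndependent L b ∧
      ∀ (i : Fin (finrank L V)) (n : κ) (σ : G), σ • b i n = b i n := by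
  classical
  -- a basis of the dual consisting of evaluations
  let B := Basis.ofSpan (span_range_evalAt V).ge
  haveI : Fintype ((linearIndepOn_empty L id).extend (Set.empty_subset (Set.range (evalAt V)))) :=
    FiniteDimensional.fintypeBasisIndex B
  have hBmem : ∀ j, ∃ n : κ, evalAt V n = B j := by
    intro j
    have := Basis.ofSpan_subset (span_range_evalAt V).ge ⟨j, rfl⟩
    exact this
  choose p hp using hBmem
  -- the dual basis of `V`
  let E := B.dualBasis.map (Module.evalEquiv L V).symm
  have hE : ∀ i j, B j (E i) = if j = i then 1 else 0 := by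
    intro i j
    have h1 : B j (E i) = (Module.evalEquiv L V (E i)) (B j) := rfl
    rw [h1]
    show (Module.evalEquiv L V ((Module.evalEquiv L V).symm (B.dualBasis i))) (B j) = _
    rw [LinearEquiv.apply_symm_apply, Basis.dualBasis_apply_self]
  -- vectors of `V` killed by all pivots vanish
  have hzero : ∀ u : V, (∀ j, B j u = 0) → u = 0 := by
    intro u hu
    have h1 : Module.Dual.eval L V u = 0 := by
      apply B.ext
      intro j
      simpa using hu j
    have h2 : Module.evalEquiv L V u = 0 := by
      rw [← Module.evalEquiv_toLinearMap] at h1
      exact h1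
    exact (LinearEquiv.map_eq_zero_iff _).mp h2
  -- fixedness
  have hfix : ∀ i (n : κ) (σ : G), σ • (E i : κ → L) n = (E i : κ → L) n := by
    intro i n σ
    have hmem : (fun n => σ • (E i : κ → L) n) ∈ V := hV σ _ (E i).2
    set u : V := ⟨fun n => σ • (E i : κ → L) n, hmem⟩ - E i with hu
    have hu0 : u = 0 := by
      apply hzero
      intro j
      rw [← hp j]
      show (u : κ → L) (p j) = 0
      have h3 : (E i : κ → L) (p j) = if j = i then 1 else 0 := by
        have := hE i j
        rw [← hp j] at this
        exact this
      rw [hu]
      show σ • (E i : κ → L) (p j) - (E i : κ → L) (p j) = 0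
      rw [h3]
      split_ifs
      · rw [smul_one, sub_self]
      · rw [smul_zero, sub_self]
    have h4 := congrArg (fun w : V => (w : κ → L) n) hu0
    simp only [hu] at h4
    have h5 : σ • (E i : κ → L) n - (E i : κ → L) n = 0 := h4
    exact sub_eq_zero.mp h5
  -- reindex by `Fin (finrank L V)`
  have hcard : Fintype.card ((linearIndepOn_empty L id).extend
      (Set.empty_subset (Set.range (evalAt V)))) = finrank L V :=
    (Module.finrank_eq_card_basis E).symm
  let e := (Fintype.equivFinOfCardEq hcard).symm
  refine ⟨fun i => (E (e i) : κ → L), fun i => (E (e i)).2, ?_, fun i n σ => hfix (e i) n σ⟩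
  have h6 : LinearIndependent L (fun i => (E i : κ → L)) :=
    E.linearIndependent.map' V.subtype (Submodule.ker_subtype V)
  exact h6.comp e e.injective

end Fermat.Agent.S23.FixedBasis
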