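/-
PROGRAM C / S23 (helper19): from the dictionary "regular differential ⇒ cusp form" (LOW), Galois
stability of the space of regular differentials (GaloisReg) and the dimension count (S20 + RR)
to a spanning family of `S₂(Γ₀(N))` with RATIONAL `q`-coefficients.
The statement is purely about a finite-dimensional `ℚbar`-space `E` of Laurent series (in the
application: the `q`-expansions of the `h` with `h dj` regular); everything that is not yet landed
enters as an explicit hypothesis.
-/
import Mathlib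
import Fermat.Prelude.Def_ModularCurve_ArithmeticGalois
import Fermat.Prelude.Def_FLTPrelim_Modularity
import Fermat.Agent.X0.Defs
import Fermat.Agent.S20.IndepBaseChange
import Fermat.Agent.S20.DictRank
import Fermat.Agent.S49.QExp
import Fermat.Agent.S23.FixedBasis

set_option autoImplicit false
set_option linter.style.haveILetI false
set_option linter.unusedSectionVars false

namespace Fermat.Agent.S23.RationalBasis

open Module ModularCurve CongruenceSubgroup Fermat.Agent.X0 Fermat.Agent.S20.DictRank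

variable {N : ℕ} [NeZero N]

theorem iotaK_algebraMap (r : ℚ) : iotaK (algebraMap ℚ Kbar r) = (r : ℂ) := by
  rw [eq_ratCast (algebraMap ℚ Kbar) r, map_ratCast]

/-- The fixed field of `Gal(ℚbar/ℚ)` is `ℚ`. -/
theorem rat_of_fixed (a : Kbar) (h : ∀ σ : Kbar ≃ₐ[ℚ] Kbar, σ a = a) :
    ∃ r : ℚ, a = algebraMap ℚ Kbar r := by
  haveI : IsAlgClosure ℚ Kbar := ⟨inferInstance, AlgebraicClosure.isAlgebraic ℚ⟩
  have h1 := InfiniteGalois.fixedField_fixingSubgroup (k := ℚ) (K := Kbar) ⊥
  have hx : a ∈ IntermediateField.fixedField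
      ((⊥ : IntermediateField ℚ Kbar).fixingSubgroup) := by
    intro σ
    exact h σ
  rw [h1] at hx
  obtain ⟨r, hr⟩ := IntermediateField.mem_bot.mp hx
  exact ⟨r, hr.symm⟩

/-- **Rational spanning family.** -/
theorem exists_rational_spanning [FiniteDimensional ℂ (CuspForm (Gamma0 N) 2)]
    (θ : LaurentSeries Kbar) (hθ0 : θ ≠ 0)
    (hθσ : ∀ σ : Kbar ≃ₐ[ℚ] Kbar, coeffMap (σ : Kbar →+* Kbar) θ = θ)
    (E : Submodule Kbar (LaurentSeries Kbar)) [FiniteDimensional Kbar E]
    (hEσ : ∀ (σ : Kbar ≃ₐ[ℚ] Kbar) (h : LaurentSeries Kbar), h ∈ E →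
      coeffMap (σ : Kbar →+* Kbar) h ∈ E)
    (hneg : ∀ h ∈ E, ∀ k : ℤ, k < 0 → (h * θ).coeff k = 0)
    (hLOW : ∀ h ∈ E, ∃ f : CuspForm (Gamma0 N) 2, ∀ n : ℕ,
      ModularFormClass.qCoeff f n = iotaK ((h * θ).coeff (n : ℤ)))
    (hdim : finrank ℂ (CuspForm (Gamma0 N) 2) ≤ finrank Kbar E) :
    ∃ (d : ℕ) (f : Fin d → CuspForm (Gamma0 N) 2),
      (∀ i n, ∃ r : ℚ, ModularFormClass.qCoeff (f i) n = (r : ℂ)) ∧
      Submodule.span ℂ (Set.range f) = ⊤ := by
  classical
  set c : E →ₗ[Kbar] (ℕ → Kbar) := (coeffNat θ).domRestrict E with hc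
  have hcinj : Function.Injective c := coeffNat_domRestrict_injective hθ0 E hneg
  set V : Submodule Kbar (ℕ → Kbar) := LinearMap.range c with hVdef
  haveI : FiniteDimensional Kbar V := by
    rw [hVdef]; infer_instance
  have hVdim : finrank Kbar V = finrank Kbar E :=
    (LinearEquiv.finrank_eq (LinearEquiv.ofInjective c hcinj)).symm
  -- Galois stability of `V`
  have hV : ∀ (σ : Kbar ≃ₐ[ℚ] Kbar) (v : ℕ → Kbar), v ∈ V → (fun n => σ • v n) ∈ V := by
    rintro σ v ⟨h, rfl⟩
    refine ⟨⟨coeffMap (σ : Kbar →+* Kbar) (h : LaurentSeries Kbar), hEσ σ _ h.2⟩, ?_⟩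
    funext n
    show ((coeffMap (σ : Kbar →+* Kbar) (h : LaurentSeries Kbar)) * θ).coeff (n : ℤ)
      = σ (((h : LaurentSeries Kbar) * θ).coeff (n : ℤ))
    conv_lhs => rw [← hθσ σ, ← map_mul]
    rfl
  obtain ⟨b, hbV, hbli, hbfix⟩ := FixedBasis.exists_fixed_basis V hV
  -- rationality of the coordinates
  have hrat : ∀ i n, ∃ r : ℚ, b i n = algebraMap ℚ Kbar r := fun i n =>
    rat_of_fixed (b i n) fun σ => hbfix i n σ
  -- the corresponding cusp forms
  have hf : ∀ i, ∃ f : CuspForm (Gamma0 N) 2, ∀ n : ℕ,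
      ModularFormClass.qCoeff f n = iotaK (b i n) := by
    intro i
    obtain ⟨h, hh⟩ := hbV i
    obtain ⟨f, hf⟩ := hLOW (h : LaurentSeries Kbar) h.2
    refine ⟨f, fun n => ?_⟩
    rw [hf n, ← hh]
    rfl
  choose f hfq using hf
  have hfli : LinearIndependent ℂ f := by
    have h1 : LinearIndependent ℂ (fun i => fun n => iotaK (b i n)) :=
      Fermat.Agent.S20.IndepBaseChange.linearIndependent_map iotaK hbli
    have h2 : (Fermat.Agent.S49.qCoeffLin N) ∘ f = fun i => fun n => iotaK (b i n) := by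
      funext i n
      exact hfq i n
    exact LinearIndependent.of_comp (Fermat.Agent.S49.qCoeffLin N) (h2 ▸ h1)
  refine ⟨finrank Kbar V, f, ?_, ?_⟩
  · intro i n
    obtain ⟨r, hr⟩ := hrat i n
    exact ⟨r, by rw [hfq i n, hr, iotaK_algebraMap]⟩
  · apply hfli.span_eq_top_of_card_eq_finrank'
    rw [Fintype.card_fin]
    apply le_antisymm
    · have := hfli.fintype_card_le_finrank
      simpa using this
    · rw [hVdim]; exact hdim

end Fermat.Agent.S23.RationalBasis
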